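import Fermat.Agent.MazurPrinciple.Peu.Tate
import Fermat.Agent.RTLift.Setup.Global.TresCurve
import Fermat.Agent.LocalP.Conditions.Flat

/-!
# Peu ramifiée `E[p]`: no root of `p` times a unit in its field

`E` has good reduction at `p`, or multiplicative reduction with `p ∣ v_p(Δ)`.
-/

set_option autoImplicit false

open scoped WeierstrassCurve.Affine

noncomputable section

namespace FermatAgent.MazurPrinciple.Peu

open WeierstrassCurve WeierstrassCurve.Affine FermatAgent.Local FermatAgent.TW.Flat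
  FermatAgent.RTLift.Setup Matrix

local notation "Qb" => AlgebraicClosure ℚ
local notation "GQ" => AlgebraicClosure ℚ ≃ₐ[ℚ] AlgebraicClosure ℚ

variable {W : WeierstrassCurve ℤ} {p : ℕ} [Fact p.Prime] {A : ValuationSubring Qb}
  (hΔ : (W.map (Int.castRingHom ℚ)).Δ ≠ 0)

/-- Multiplicative at `p` with `p ∣ v(Δ)`. -/
theorem false_of_mult (hA : A.LiesOverPrime p) (hp2 : p ≠ 2) (hirr : W.ModRepIsIrreducible p)
    (hbad : (p : ℤ) ∣ W.Δ) (hc₄ : ¬ (p : ℤ) ∣ W.c₄) (hv : p ∣ padicValInt p W.Δ)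
    {r : Qb} (hr : A.valuation r ^ p = A.valuation (p : Qb))
    (hrp : ∀ σ ∈ inertiaCyclo p A, σ (r ^ p) = r ^ p)
    (hker : ∀ σ ∈ inertiaCyclo p A, gmat (p := p) hΔ σ = 1 → σ r = r) : False := by
  have hp := (Fact.out : p.Prime)
  have hW := qbarCurve_intCoeffs W A
  have hΔ0 : W.Δ ≠ 0 := GalRep.Tate.intΔ_ne_zero W hΔ
  have hvΔ : A.valuation (qbarCurve W).Δ < 1 := by
    rw [qbarCurve_Δ]; exact (val_intCast_lt_one_iff hp hA _).2 hbad
  have hΔ1 : (qbarCurve W).Δ ≠ 0 := by rw [qbarCurve_Δ]; exact_mod_cast hΔ0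
  have hc : A.valuation (qbarCurve W).c₄ = 1 := by
    rw [qbarCurve_c₄]; exact val_intCast_eq_one hp hA hc₄
  obtain ⟨C, hT, hcv, hu, hr', hs, ht, hC⟩ := exists_tate_form hW hvΔ hΔ1 hc
  obtain ⟨m, hm, hdvd⟩ : ∃ m : ℤ, W.Δ = (p : ℤ) ^ padicValInt p W.Δ * m ∧ ¬ (p : ℤ) ∣ m := by
    obtain ⟨m, hm⟩ : (p : ℤ) ^ padicValInt p W.Δ ∣ W.Δ := padicValInt_dvd _
    refine ⟨m, hm, fun hd => ?_⟩
    have := (padicValInt_dvd_iff (p := p) (padicValInt p W.Δ + 1) W.Δ).1
      ((pow_succ (p : ℤ) _).symm ▸ (mul_dvd_mul_left _ hd).trans hm.symm.dvd)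
    rcases this with h | h
    · exact hΔ0 h
    · omega
  have hval : A.valuation (C • qbarCurve W).a₆ = A.valuation (p : Qb) ^ padicValInt p W.Δ := by
    rw [hcv, qbarCurve_Δ]
    conv_lhs => rw [hm]
    rw [Int.cast_mul, Int.cast_pow, map_mul, map_pow, Int.cast_natCast,
      val_intCast_eq_one hp hA hdvd, mul_one]
  have hΔC : (C • qbarCurve W).Δ ≠ 0 := by
    rw [WeierstrassCurve.variableChange_Δ]
    exact mul_ne_zero (pow_ne_zero _ (Units.ne_zero _)) hΔ1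
  let back : (qbarCurve W).Point ≃+ (C • qbarCurve W).toAffine.Point :=
    (AddEquiv.ofBijective (vcHom (qbarCurve W) C) (vcHom_bijective _ _)).symm
  have hback : ∀ Q, vcHom (qbarCurve W) C (back Q) = Q := fun Q =>
    (AddEquiv.ofBijective (vcHom (qbarCurve W) C) (vcHom_bijective _ _)).apply_symm_apply Q
  have hfix : ∀ σ ∈ inertiaCyclo p A,
      (C • qbarCurve W).toAffine.map ((σ : GQ) : Qb →+* Qb) = (C • qbarCurve W).toAffine :=
    fun σ hσ => vc_map_eq (qbarCurve_conj W _) (hC σ hσ.1 (qbarCurve_conj W _))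
  refine false_of_tate hA hp2 hT hΔC hval hv hfix
    (ι := back.toAddMonoidHom.comp (torPt hΔ))
    (back.injective.comp (torPt_injective hΔ)) (fun P hP => ?_)
    (gmat (p := p) hΔ) (fun σ hσ x => ?_) (fun σ hσ => ?_) hr hrp hker
  · obtain ⟨x, hx⟩ := exists_torPt_eq hΔ (P := vcHom (qbarCurve W) C P)
      (by rw [← map_nsmul, hP, map_zero])
    refine ⟨x, (vcHom_bijective _ _).1 ?_⟩
    show vcHom _ C (back (torPt hΔ x)) = _
    rw [hback, hx]
  · refine (vcHom_bijective _ _).1 ?_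
    rw [vcHom_conjPoint (qbarCurve_conj W _) (hC σ hσ.1 (qbarCurve_conj W _))]
    show vcHom _ C (back (torPt hΔ _)) = conjPoint _ _ _ (vcHom _ C (back (torPt hΔ x)))
    rw [hback, hback, torPt_gmat, galois_smul_eq_conjPoint]
  · rw [det_gmat hΔ hirr, (mem_inertiaCyclo.1 hσ).2, Units.val_one]

/-- Peu ramifiée: no root of `p` times a unit fixed by the kernel of `E[p]`. -/
theorem false_of_peu (hA : A.LiesOverPrime p) (hp2 : p ≠ 2) (hirr : W.ModRepIsIrreducible p)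
    (hss : (p : ℤ) ∣ W.Δ → ¬ (p : ℤ) ∣ W.c₄)
    (hflat : (W.map (Int.castRingHom ℚ)).IsPeuRamifieeAt p p)
    {r : Qb} (hr : A.valuation r ^ p = A.valuation (p : Qb))
    (hrp : ∀ σ ∈ inertiaCyclo p A, σ (r ^ p) = r ^ p)
    (hker : ∀ σ ∈ inertiaCyclo p A, gmat (p := p) hΔ σ = 1 → σ r = r) : False := by
  by_cases hbad : (p : ℤ) ∣ W.Δ
  · refine false_of_mult hΔ hA hp2 hirr hbad (hss hbad) ?_ hr hrp hker
    have h : (p : ℤ) ∣ padicValRat p ((W.map (Int.castRingHom ℚ)).Δ) := hflat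
    rw [WeierstrassCurve.map_Δ, eq_intCast, padicValRat.of_int] at h
    exact Int.natCast_dvd_natCast.1 h
  · obtain ⟨G⟩ := LocalP.nonempty_functionModel_of_points (Fact.out : p.Prime) hbad (torPt hΔ)
      (torPt_injective hΔ) (fun σ x => gmat (p := p) hΔ σ *ᵥ x) fun σ x => torPt_gmat hΔ σ x
    exact false_of_functionModel hΔ hA G hr hrp hker

end FermatAgent.MazurPrinciple.Peu
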