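import Fermat.Agent.MazurPrinciple.Peu.Move
import Fermat.Agent.RTLift.Setup.Global.Residual
import Mathlib.LinearAlgebra.Matrix.GeneralLinearGroup.Card

/-!
# A finite flat model of `E[p]` forbids a root of `p` times a unit in its field
-/

set_option autoImplicit false

noncomputable section

namespace FermatAgent.MazurPrinciple.Peu

open FermatAgent.Local FermatAgent.TW.Flat FermatAgent.RTLift.Setup Matrix

local notation "Qb" => AlgebraicClosure ℚ
local notation "GQ" => AlgebraicClosure ℚ ≃ₐ[ℚ] AlgebraicClosure ℚ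

variable {p : ℕ} [Fact p.Prime] {A : ValuationSubring Qb}

omit A in
/-- `p ^ 2` does not divide the order of `GL₂(𝔽_p)`. -/
theorem not_sq_dvd_card_GL : ¬ p ^ 2 ∣ Nat.card (Matrix (Fin 2) (Fin 2) (ZMod p))ˣ := by
  have hp := (Fact.out : p.Prime)
  show ¬ p ^ 2 ∣ Nat.card (GL (Fin 2) (ZMod p))
  rw [Matrix.card_GL_field, Fin.prod_univ_two, ZMod.card]
  simp only [Fin.val_zero, pow_zero, Fin.val_one, pow_one]
  have e : (p ^ 2 - 1) * (p ^ 2 - p) = p * ((p ^ 2 - 1) * (p - 1)) := by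
    rw [show p ^ 2 - p = p * (p - 1) by rw [Nat.mul_sub, mul_one, pow_two]]; ring
  rw [e, pow_two, Nat.mul_dvd_mul_iff_left hp.pos, hp.dvd_mul]
  have h2 := hp.two_le
  have hpp : 1 ≤ p ^ 2 := Nat.one_le_pow _ _ hp.pos
  rintro (h | h)
  · have h1 : p ∣ p * p := dvd_mul_right p p
    have h3 := Nat.dvd_sub h1 h
    rw [Nat.sub_sub_self (show 1 ≤ p * p by nlinarith), Nat.dvd_one] at h3
    omega
  · have := Nat.le_of_dvd (by omega) h
    omega

variable {W : WeierstrassCurve ℤ} (hΔ : (W.map (Int.castRingHom ℚ)).Δ ≠ 0)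

/-- With a finite flat model of `E[p]` no such root exists. -/
theorem false_of_functionModel (hA : A.LiesOverPrime p)
    (G : GalRep.Flat.FunctionModel p (Fin 2 → ZMod p)
      (fun σ x => gmat (p := p) hΔ σ *ᵥ x))
    {r : Qb} (hr : A.valuation r ^ p = A.valuation (p : Qb))
    (hrp : ∀ σ ∈ inertiaCyclo p A, σ (r ^ p) = r ^ p)
    (hker : ∀ σ ∈ inertiaCyclo p A, gmat (p := p) hΔ σ = 1 → σ r = r) : False := by
  obtain ⟨σ₁, hσ₁, hne, -, hmove⟩ := exists_move_lt (p := p) not_sq_dvd_card_GL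
    (gmat (p := p) hΔ).toHomUnits hA hr hrp
    fun σ hσ h => hker σ hσ (congrArg Units.val h)
  have hM := (isLModel_ofFunctionModel (J := A.inertiaSubgroupIn ℚ) G hA).baseChange
    (J' := inertiaCyclo p A) inf_le_left
  obtain ⟨x₀, hx₀⟩ : ∃ x₀, gmat (p := p) hΔ σ₁ *ᵥ x₀ ≠ x₀ := by
    by_contra! hall
    exact hne (Units.ext (Matrix.toLin'.injective (LinearMap.ext fun x => by
      simpa using hall x)))
  set w := gmat (p := p) hΔ σ₁ *ᵥ x₀ - x₀
  obtain ⟨g, hg, hmax⟩ := hM.exists_max_diff (x₀ + w) x₀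
  have hT := hM.val_p_le_pow (p := p) hA (sub_ne_zero.2 hx₀) (funext fun i => by simp)
    (hM.small_of_translate hmax)
  refine absurd hT (not_le.2 ?_)
  rw [show g (x₀ + w) = σ₁ (g x₀) by
    rw [← hM.equivariant g hg σ₁ hσ₁, add_sub_cancel]]
  exact hmove _ (hM.mem_A hg x₀) fun σ hσ h => hM.apply_fixed hg hσ (by
    rw [show gmat (p := p) hΔ σ = 1 from congrArg Units.val h, Matrix.one_mulVec])

end FermatAgent.MazurPrinciple.Peu
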