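import Fermat.Agent.RTLift.Setup.Global.Tres

/-!
# Displacements in a field containing a `p`-th root of a uniformizer

Let `r ^ p` be fixed by `J = I ∩ ker χ` with `|r| ^ p = |p|` and let `r` be fixed by the elements of
`J` killed by `ρ`, whose target has order prime to `p ^ 2`.  Some `σ₁ ∈ J` of order `p` in the target
then moves the integers of that field by less than `|ζ - 1|`.
-/

set_option autoImplicit false

noncomputable section

namespace FermatAgent.MazurPrinciple.Peu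

open FermatAgent.Local FermatAgent.TW.Flat FermatAgent.RTLift.Setup
open FermatAgent.TW (natCast_val_ne_zero zpow_inj_of_lt_one)

local notation "Qb" => AlgebraicClosure ℚ
local notation "GQ" => AlgebraicClosure ℚ ≃ₐ[ℚ] AlgebraicClosure ℚ

variable {p : ℕ} [Fact p.Prime] {A : ValuationSubring Qb}

/-- Powers of a root of unity stay as close to `1`. -/
theorem val_pow_sub_one_le {ζ : Qb} (hζ : IsPrimitiveRoot ζ p) (k : ℕ) :
    A.valuation (ζ ^ k - 1) ≤ A.valuation (ζ - 1) := by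
  have hp := (Fact.out : p.Prime)
  have hmem : ζ ∈ A := mem_of_val_le_one (TW.eq_one_of_pow_eq_one hp.ne_zero
    (by rw [← map_pow, hζ.pow_eq_one, map_one])).le
  rw [← geom_sum_mul, map_mul]
  exact mul_le_of_le_one_left' (val_le_one_of_mem (sum_mem fun i _ => pow_mem hmem i))

/-- Invariants of a subgroup of index `m` have values whose `m`-th power is a power of `u`. -/
theorem exists_val_pow_index {J J' : Subgroup GQ} {u : A.ValueGroup} (hu : Uniform A J u)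
    (hJD : J ≤ A.decompositionSubgroup ℚ) (hne : J'.relIndex J ≠ 0) {x : Qb} (hx : x ≠ 0)
    (hfix : ∀ σ ∈ J', σ x = x) : ∃ n : ℤ, A.valuation x ^ J'.relIndex J = u ^ n := by
  classical
  let K := J'.subgroupOf J
  have : K.FiniteIndex := ⟨hne⟩
  let _ := Fintype.ofFinite (J ⧸ K)
  have hwd : ∀ a b : J, (QuotientGroup.mk a : J ⧸ K) = QuotientGroup.mk b →
      (a : GQ) x = (b : GQ) x := by
    intro a b h
    have h1 : (a⁻¹ * b : J) ∈ K := QuotientGroup.eq.mp h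
    rw [show (b : GQ) = (a : GQ) * ((a⁻¹ * b : J) : GQ) from
      congrArg Subtype.val (mul_inv_cancel_left a b).symm, AlgEquiv.mul_apply]
    exact congrArg (a : GQ) (hfix _ (Subgroup.mem_subgroupOf.mp h1)).symm
  set P := ∏ q : J ⧸ K, ((Quotient.out q : J) : GQ) x
  have hP0 : P ≠ 0 := Finset.prod_ne_zero_iff.mpr fun q _ =>
    (_root_.map_ne_zero _).mpr hx
  have hPfix : ∀ σ ∈ J, σ P = P := by
    intro σ hσ
    rw [map_prod]
    refine Fintype.prod_equiv (MulAction.toPerm (⟨σ, hσ⟩ : J)) _ _ fun q => ?_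
    show σ (((Quotient.out q : J) : GQ) x) = ((Quotient.out ((⟨σ, hσ⟩ : J) • q) : J) : GQ) x
    rw [← AlgEquiv.mul_apply]
    refine (hwd (⟨σ, hσ⟩ * Quotient.out q) _ ?_)
    rw [QuotientGroup.out_eq']
    conv_rhs => rw [← QuotientGroup.out_eq' q]
    rfl
  obtain ⟨n, hn⟩ := hu.fixed P hP0 hPfix
  refine ⟨n, ?_⟩
  rw [← hn, map_prod]
  refine Eq.trans ?_ (Finset.prod_congr rfl fun q _ =>
    (val_galois_eq (hJD (Quotient.out q : J).2) x).symm)
  rw [Finset.prod_const, Finset.card_univ, ← Nat.card_eq_fintype_card]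
  rfl

variable {G : Type*} [Group G] [Finite G] (hG : ¬ p ^ 2 ∣ Nat.card G) (ρ : GQ →* G)
  (hA : A.LiesOverPrime p)
include hG hA

omit [Finite G] in
/-- Some element of order `p` moves integers by less than `|ζ - 1|`. -/
theorem exists_move_lt {r : Qb} (hr : A.valuation r ^ p = A.valuation (p : Qb))
    (hrp : ∀ σ ∈ inertiaCyclo p A, σ (r ^ p) = r ^ p)
    (hker : ∀ σ ∈ inertiaCyclo p A, ρ σ = 1 → σ r = r) :
    ∃ σ₁ ∈ inertiaCyclo p A, ρ σ₁ ≠ 1 ∧ ρ σ₁ ^ p = 1 ∧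
      ∀ x ∈ A, (∀ σ ∈ inertiaCyclo p A, ρ σ = 1 → σ x = x) →
        A.valuation (σ₁ x - x) ^ (p - 1) < A.valuation (p : Qb) := by
  classical
  have hp := (Fact.out : p.Prime)
  set J := inertiaCyclo p A
  have hJD : J ≤ A.decompositionSubgroup ℚ := fun σ hσ =>
    mem_decomposition_of_inertia (mem_inertiaCyclo.1 hσ).1
  obtain ⟨ζ₀, hζ₀⟩ : ∃ ζ : Qb, IsPrimitiveRoot ζ p :=
    have : NeZero ((p : ℕ) : Qb) := ⟨Nat.cast_ne_zero.2 hp.ne_zero⟩
    HasEnoughRootsOfUnity.exists_primitiveRoot Qb p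
  have hr0 : r ≠ 0 := fun h => natCast_val_ne_zero A hp
    (by rw [← hr, h, map_zero, zero_pow hp.ne_zero])
  have hfix1 : ∀ σ ∈ J, ∀ ζ : Qb, IsPrimitiveRoot ζ p → σ ζ = ζ := fun σ hσ ζ hζ => by
    rw [TW.apply_root_eq_pow hζ σ, (mem_inertiaCyclo.1 hσ).2, Units.val_one, ZMod.val_one, pow_one]
  -- an element of `J` moving `r`
  obtain ⟨σ₀, hσ₀, hmov⟩ : ∃ σ ∈ J, σ r ≠ r := by
    by_contra! hall
    obtain ⟨n, hn⟩ := (uniform_inertiaCyclo hζ₀ hA).fixed r hr0 hall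
    have hu := uniform_inertiaCyclo hζ₀ hA
    rw [hn, ← Duality.Local.val_zeta_sub_one_pow hζ₀, ← zpow_natCast, ← zpow_natCast,
      ← _root_.zpow_mul] at hr
    have h := zpow_inj_of_lt_one hu.ne_zero hu.lt_one hr
    have := hp.two_le
    have hd : (p : ℤ) ∣ ((p - 1 : ℕ) : ℤ) := ⟨n, by rw [← h]; ring⟩
    have := Nat.le_of_dvd (by omega) (Int.natCast_dvd_natCast.mp hd)
    omega
  set ξ := σ₀ r / r
  have hξp : ξ ^ p = 1 := by
    rw [div_pow, ← map_pow, hrp σ₀ hσ₀, div_self (pow_ne_zero _ hr0)]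
  have hξ1 : ξ ≠ 1 := fun h => hmov ((div_eq_one_iff_eq hr0).mp h)
  have hξ : IsPrimitiveRoot ξ p :=
    IsPrimitiveRoot.iff_orderOf.mpr (orderOf_eq_prime hξp hξ1)
  have hpow : ∀ n : ℕ, (σ₀ ^ n) r = ξ ^ n * r := by
    intro n
    induction n with
    | zero => simp
    | succ n ih =>
      rw [pow_succ, AlgEquiv.mul_apply, show σ₀ r = ξ * r from (div_mul_cancel₀ _ hr0).symm,
        map_mul, hfix1 _ (J.pow_mem hσ₀ n) ξ hξ, ih]
      ring
  -- its part of order `p`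
  have hdo : p ∣ orderOf (ρ σ₀) := by
    refine (hξ.pow_eq_one_iff_dvd _).mp (mul_right_cancel₀ hr0 ?_)
    rw [one_mul, ← hpow]
    exact hker _ (J.pow_mem hσ₀ _) (by rw [map_pow, pow_orderOf_eq_one])
  obtain ⟨m₀, hm₀⟩ := hdo
  have hpm₀ : ¬ p ∣ m₀ := fun h => hG ((pow_two p ▸ Nat.mul_dvd_mul_left p h).trans
    (hm₀ ▸ orderOf_dvd_natCard _))
  set σ₁ := σ₀ ^ m₀
  have hσ₁ : σ₁ ∈ J := J.pow_mem hσ₀ _
  set ζ := ξ ^ m₀
  have hζ : IsPrimitiveRoot ζ p := hξ.pow_of_coprime _ (hp.coprime_iff_not_dvd.mpr hpm₀).symm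
  have hord : orderOf (ρ σ₁) = p := by
    rw [map_pow, orderOf_pow' _ (fun h => hpm₀ (by rw [h]; exact dvd_zero p)), hm₀,
      Nat.gcd_eq_right (dvd_mul_left m₀ p), Nat.mul_div_cancel _ (Nat.pos_of_ne_zero fun h =>
        hpm₀ (by rw [h]; exact dvd_zero p))]
  have hh1 : ρ σ₁ ≠ 1 := fun h => hp.ne_one (by rw [← hord, h, orderOf_one])
  refine ⟨σ₁, hσ₁, hh1, hord ▸ pow_orderOf_eq_one _, fun x hxA hx => ?_⟩
  have hu := uniform_inertiaCyclo hζ hA
  set u := A.valuation (ζ - 1) with hudef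
  have hup : u ^ (p - 1) = A.valuation (p : Qb) := Duality.Local.val_zeta_sub_one_pow hζ
  -- the subgroup over `⟨ρ σ₁⟩`
  set J' := (Subgroup.zpowers (ρ σ₁)).comap ρ ⊓ J with hJ'def
  have hσ₁' : σ₁ ∈ J' := ⟨Subgroup.mem_zpowers (ρ σ₁), hσ₁⟩
  have hJ'J : J' ≤ J := inf_le_right
  set m := J'.relIndex J with hmdef
  have hcard : p * m = Nat.card (J.map ρ) := by
    have hle : Subgroup.zpowers (ρ σ₁) ≤ J.map ρ :=
      Subgroup.zpowers_le.mpr (Subgroup.mem_map_of_mem ρ hσ₁)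
    rw [hmdef, hJ'def, Subgroup.inf_relIndex_right, Subgroup.relIndex_comap,
      ← Subgroup.relIndex_bot_left (J.map ρ), ← hord, ← Nat.card_zpowers,
      ← Subgroup.relIndex_bot_left (Subgroup.zpowers (ρ σ₁)),
      Subgroup.relIndex_mul_relIndex _ _ _ bot_le hle]
  have hpm : ¬ p ∣ m := fun h => hG ((pow_two p ▸ Nat.mul_dvd_mul_left p h).trans
    (hcard ▸ Subgroup.card_subgroup_dvd_card _))
  -- interpolation
  have heq : ∀ z : Qb, (∀ σ ∈ J, ρ σ = 1 → σ z = z) → ∀ σ ∈ J, ∀ τ ∈ J, ρ σ = ρ τ → σ z = τ z := by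
    intro z hz σ hσ τ hτ h
    have h1 := hz (τ⁻¹ * σ) (J.mul_mem (J.inv_mem hτ) hσ) (by rw [map_mul, map_inv, h, inv_mul_cancel])
    conv_rhs => rw [← h1, ← AlgEquiv.mul_apply, mul_inv_cancel_left]
  have hex : ∀ σ, ∃ j : ZMod p, σ ∈ J' → ρ σ = ρ σ₁ ^ j.val := fun σ => by
    by_cases hσ : σ ∈ J'
    · obtain ⟨n, hn⟩ := Subgroup.mem_zpowers_iff.mp
        (show ρ σ ∈ Subgroup.zpowers (ρ σ₁) from hσ.1)
      refine ⟨(n : ZMod p), fun _ => ?_⟩
      rw [← hn, ← zpow_natCast, ZMod.val_intCast, ← hord, zpow_mod_orderOf]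
    · exact ⟨0, fun h => absurd h hσ⟩
  choose f hf using hex
  have hact : ∀ z : Qb, (∀ σ ∈ J, ρ σ = 1 → σ z = z) → ∀ σ ∈ J', ∀ j : ZMod p,
      σ ((σ₁ ^ j.val) z) = (σ₁ ^ (j + f σ).val) z := by
    intro z hz σ hσ j
    rw [← AlgEquiv.mul_apply]
    refine heq z hz _ (J.mul_mem (hJ'J hσ) (J.pow_mem hσ₁ _)) _ (J.pow_mem hσ₁ _) ?_
    rw [map_mul, map_pow ρ σ₁ j.val, map_pow ρ σ₁ (j + f σ).val, hf σ hσ, ← pow_add, pow_eq_pow_iff_modEq, hord,
      ← ZMod.natCast_eq_natCast_iff, Nat.cast_add, ZMod.natCast_zmod_val, ZMod.natCast_zmod_val,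
      ZMod.natCast_zmod_val, add_comm]
  have hy : ∀ j : ℕ, (σ₁ ^ j) r = ζ ^ j * r := fun j => by
    rw [← pow_mul, hpow, ← pow_mul]
  obtain ⟨a, ha, hexp⟩ := exists_expansion_interpolate (p := p)
    (y := fun j => (σ₁ ^ j.val) r) (G := fun j => (σ₁ ^ j.val) x)
    (fun i j h => by
      simp only [hy] at h
      exact ZMod.val_injective p (hζ.pow_inj (ZMod.val_lt i) (ZMod.val_lt j)
        (mul_right_cancel₀ hr0 h)))
    (hact r hker) (hact x hx)
  have hx' : x = ∑ k ∈ Finset.range p, a k * r ^ k := by simpa using hexp 0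
  -- values of the terms
  have hval : ∀ k, a k ≠ 0 → ∃ n : ℤ,
      A.valuation (a k * r ^ k) ^ (p * m) = u ^ ((p : ℤ) * n + k * ((p - 1 : ℕ) * m : ℕ)) := by
    intro k hk
    obtain ⟨n, hn⟩ := exists_val_pow_index hu hJD (fun h => hpm (by rw [hmdef, h]; exact dvd_zero p))
      hk (ha k)
    refine ⟨n, ?_⟩
    rw [map_mul, mul_pow, mul_comm p m, pow_mul, hn, map_pow, ← pow_mul,
      show k * (m * p) = p * (m * k) by ring, pow_mul, hr, ← hup, ← pow_mul, ← zpow_natCast,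
      ← zpow_natCast, ← _root_.zpow_mul, ← zpow_add₀ hu.ne_zero]
    congr 1
    push_cast
    ring
  have hinj : ∀ {i j : ℕ}, i < p → j < p → ∀ n n' : ℤ,
      (p : ℤ) * n + i * ((p - 1 : ℕ) * m : ℕ) = (p : ℤ) * n' + j * ((p - 1 : ℕ) * m : ℕ) → i = j := by
    intro i j hi hj n n' h
    have hd : (p : ℤ) ∣ ((i : ℤ) - j) * ((p - 1 : ℕ) * m : ℕ) := ⟨n' - n, by linear_combination h⟩
    rcases (Nat.prime_iff_prime_int.1 hp).dvd_mul.1 hd with h' | h'
    · have := Int.eq_zero_of_abs_lt_dvd h' (abs_sub_lt_iff.2 ⟨by omega, by omega⟩)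
      omega
    · rcases hp.dvd_mul.1 (Int.natCast_dvd_natCast.1 h') with h'' | h''
      · have := Nat.le_of_dvd (by have := hp.two_le; omega) h''
        omega
      · exact absurd h'' hpm
  have hdis : ∀ i ∈ Finset.range p, ∀ j ∈ Finset.range p, a i * r ^ i ≠ 0 →
      A.valuation (a i * r ^ i) = A.valuation (a j * r ^ j) → i = j := by
    intro i hi j hj hne e
    have haj : a j ≠ 0 := fun h => hne (by
      rw [h, zero_mul, map_zero, map_eq_zero] at e; exact e)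
    obtain ⟨n, hn⟩ := hval i (left_ne_zero_of_mul hne)
    obtain ⟨n', hn'⟩ := hval j haj
    rw [e, hn'] at hn
    exact hinj (Finset.mem_range.1 hi) (Finset.mem_range.1 hj) n n'
      (zpow_inj_of_lt_one hu.ne_zero hu.lt_one hn).symm
  rw [← hup]
  refine pow_lt_pow_left₀ ?_ zero_le (by have := hp.two_le; omega)
  rw [hx', map_sum, ← Finset.sum_sub_distrib]
  refine A.valuation.map_sum_lt hu.ne_zero fun k hk => ?_
  rw [map_mul, map_pow, ha k σ₁ hσ₁', show σ₁ r = ζ * r by simpa using hy 1, mul_pow,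
    show a k * (ζ ^ k * r ^ k) - a k * r ^ k = a k * r ^ k * (ζ ^ k - 1) by ring, map_mul]
  rcases eq_or_ne k 0 with rfl | hk0
  · simp [zero_lt_iff, hu.ne_zero]
  rcases eq_or_ne (a k) 0 with hak | hak
  · simp [hak, zero_lt_iff, hu.ne_zero]
  have h1 : A.valuation (a k * r ^ k) < 1 := by
    refine lt_of_le_of_ne ((hx' ▸ val_term_le_sum hdis hk : _ ≤ A.valuation x).trans
      (val_le_one_of_mem hxA)) fun h => ?_
    obtain ⟨n, hn⟩ := hval k hak
    rw [h, one_pow, ← zpow_zero u] at hn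
    refine hk0 (hinj (Finset.mem_range.1 hk) hp.pos n 0 ?_)
    rw [← zpow_inj_of_lt_one hu.ne_zero hu.lt_one hn]
    simp
  calc A.valuation (a k * r ^ k) * A.valuation (ζ ^ k - 1)
      ≤ A.valuation (a k * r ^ k) * u := mul_le_mul' le_rfl (val_pow_sub_one_le hζ k)
    _ < 1 * u := mul_lt_mul_of_pos_right h1 (zero_lt_iff.2 hu.ne_zero)
    _ = u := one_mul u

end FermatAgent.MazurPrinciple.Peu
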