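import Fermat.Agent.LocalP.XFormulas
import Fermat.Agent.Local.Tate
import Fermat.Agent.Local.TateGalois

/-!
# Adding a point of the formal group to a low point of a Tate curve

The abscissa moves by exactly `|z|` times itself, `z` the parameter of the formal point.
-/

set_option autoImplicit false

open scoped WeierstrassCurve.Affine

noncomputable section

namespace FermatAgent.MazurPrinciple.Peu

open WeierstrassCurve WeierstrassCurve.Affine FermatAgent.Local

local notation "Qb" => AlgebraicClosure ℚ

variable {A : ValuationSubring Qb} {W : WeierstrassCurve.Affine Qb}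

/-- In the formal group `|t'| ^ 2 = |t| ^ 3` and `|t| < |t'|`. -/
theorem val_formal (hT : IsTate A W) {t t' : Qb} (hQ : W.Nonsingular t t') (ht : t ∉ A) :
    A.valuation t < A.valuation t' ∧ A.valuation t' ^ 2 = A.valuation t ^ 3 ∧
      A.valuation t * A.valuation (t / t') ^ 2 = 1 := by
  have hvt := one_lt_val_of_not_mem ht
  have hteq := hT.equation' hQ.1
  have hc3 : A.valuation (t ^ 3 + W.a₆) = A.valuation t ^ 3 := by
    rw [A.valuation.map_add_eq_of_lt_left, map_pow]
    rw [map_pow]; exact hT.c_lt.trans_le (one_le_pow₀ hvt.le)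
  have hv' : A.valuation t < A.valuation t' := by
    by_contra hle
    rw [not_lt] at hle
    have h1 : A.valuation (t' * (t' + t)) ≤ A.valuation t ^ 2 := by
      rw [map_mul, sq]
      exact mul_le_mul' hle ((A.valuation.map_add _ _).trans (max_le hle le_rfl))
    rw [hteq, hc3] at h1
    exact (pow_lt_pow_right₀ hvt (by norm_num : 2 < 3)).not_ge h1
  have hsq : A.valuation t' ^ 2 = A.valuation t ^ 3 := by
    rw [sq, ← hc3, ← hteq, map_mul, A.valuation.map_add_eq_of_lt_left hv']
  refine ⟨hv', hsq, ?_⟩
  have ht0 : A.valuation t ≠ 0 := (zero_lt_one.trans hvt).ne'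
  rw [map_div₀, div_pow, hsq, ← mul_div_assoc, ← pow_succ', div_self (pow_ne_zero _ ht0)]

/-- The exact displacement. -/
theorem val_xCoord_add_sub_eq (hT : IsTate A W) {x y t t' : Qb} {hP : W.Nonsingular x y}
    {hQ : W.Nonsingular t t'} {g : A.ValueGroup} (hlow : Low A W (.some x y hP) g) (ht : t ∉ A)
    (h2 : A.valuation (2 : Qb) = 1) :
    A.valuation (LocalP.xCoord (Point.some x y hP + Point.some t t' hQ) - x) =
      A.valuation (t / t') * g := by
  obtain ⟨hx, hc, hg1, hy⟩ := hlow
  have hvt := one_lt_val_of_not_mem ht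
  have hne : x ≠ t := fun h => ht (h ▸ mem_of_val_le_one (hx.trans_le hg1.le))
  rw [Point.add_of_X_ne hne]
  show A.valuation (W.addX x t (W.slope x t y t') - x) = _
  obtain ⟨hv', hsq, -⟩ := val_formal hT hQ ht
  have hvt' : 1 < A.valuation t' := hvt.trans hv'
  have hg0 : (0 : A.ValueGroup) < g := zero_le.trans_lt hy
  have hd : A.valuation (t - x) = A.valuation t :=
    A.valuation.map_sub_eq_of_lt_left (hx.trans_lt (hg1.trans hvt))
  have key : (W.addX x t (W.slope x t y t') - x) * (t - x) ^ 2 =
      -(t' * (2 * y + x)) + (W.a₆ + W.a₆ + (-(x ^ 3)) + 3 * (x ^ 2 * t) + (-(t * y))) := by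
    have hd1 : x - t ≠ 0 := sub_ne_zero.2 hne
    rw [slope_of_X_ne hne]
    simp only [addX, hT.a₁, hT.a₂]
    field_simp
    linear_combination (x - t) ^ 2 * (hT.equation' hQ.1) + (x - t) ^ 2 * (hT.equation' hP.1)
  have hmain : A.valuation (-(t' * (2 * y + x))) = A.valuation t' * g := by
    rw [Valuation.map_neg, map_mul, A.valuation.map_add_eq_of_lt_right (by
      rw [map_mul, h2, one_mul, hx]; exact hy), hx]
  have hg2 : g ^ 2 < A.valuation t' * g := by
    rw [sq]; exact mul_lt_mul_of_pos_right (hg1.trans hvt') hg0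
  have hbound := congrArg A.valuation key
  rw [A.valuation.map_add_eq_of_lt_left, hmain, map_mul, map_pow, hd] at hbound
  · refine mul_right_cancel₀ (pow_ne_zero 2 (zero_lt_one.trans hvt).ne') ?_
    rw [hbound, map_div₀]
    have ht'0 : A.valuation t' ≠ 0 := (zero_lt_one.trans hvt').ne'
    rw [div_mul_eq_mul_div, div_mul_eq_mul_div, eq_div_iff ht'0,
      mul_right_comm (A.valuation t) g, ← pow_succ', ← hsq, pow_two (A.valuation t')]
    ac_rfl
  · rw [hmain]
    refine A.valuation.map_add_lt (A.valuation.map_add_lt (A.valuation.map_add_lt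
      (A.valuation.map_add_lt ?_ ?_) ?_) ?_) ?_
    · exact hc.trans hg2
    · exact hc.trans hg2
    · rw [Valuation.map_neg, map_pow, hx]
      refine lt_of_le_of_lt ?_ hg2
      exact pow_le_pow_right_of_le_one' hg1.le (by norm_num)
    · rw [map_mul, map_mul, map_pow, hx]
      refine (mul_le_of_le_one_left' (val_le_one_of_mem (natCast_mem A 3))).trans_lt ?_
      rw [sq, mul_comm (A.valuation t') g, mul_assoc]
      refine mul_lt_mul_of_pos_left ?_ hg0
      exact (mul_le_of_le_one_left' hg1.le).trans_lt hv'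
    · rw [Valuation.map_neg, map_mul]
      exact mul_lt_mul'' hv' hy zero_le zero_le

end FermatAgent.MazurPrinciple.Peu
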