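import Fermat.Agent.LocalP.XFormulas
import Fermat.Agent.Local.TateGalois
import Fermat.Agent.TW.Flat.Val

/-!
# Abscissae of `p`-torsion in `E₁`: a product bound

If all coefficients of `a ∏ (X - r)` are integral, then `|a|` times the product of the `|r| > 1` is at
most `1`; for `preΨ' p` this bounds the abscissae of the torsion in the formal group.
-/

set_option autoImplicit false

noncomputable section

namespace FermatAgent.MazurPrinciple.Peu

open Polynomial FermatAgent.Local WeierstrassCurve WeierstrassCurve.Affine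

variable {K : Type*} [Field K] {A : ValuationSubring K}

/-- The lower bound of the Gauss norm by the roots. -/
theorem val_mul_prod_max_le (s : Multiset K) : ∀ a : K,
    (∀ i, A.valuation ((C a * (s.map fun r => X - C r).prod).coeff i) ≤ 1) →
      A.valuation a * (s.map fun r => max 1 (A.valuation r)).prod ≤ 1 := by
  induction s using Multiset.induction with
  | empty => intro a h; simpa using h 0
  | cons r s ih =>
    intro a h
    rw [Multiset.map_cons, Multiset.prod_cons] at h ⊢
    set g := C a * (s.map fun r => X - C r).prod with hg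
    rw [show C a * ((X - C r) * (s.map fun r => X - C r).prod) = (X - C r) * g by rw [hg]; ring] at h
    have h0 : A.valuation (r * g.coeff 0) ≤ 1 := by
      have := h 0
      rw [sub_mul, coeff_sub, coeff_X_mul_zero, coeff_C_mul, zero_sub, Valuation.map_neg] at this
      exact this
    have hs : ∀ i, A.valuation (g.coeff i - r * g.coeff (i + 1)) ≤ 1 := fun i => by
      have := h (i + 1)
      rw [sub_mul, coeff_sub, coeff_X_mul] at this
      rw [coeff_C_mul (a := r)] at this
      exact this
    by_cases hr : A.valuation r ≤ 1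
    · rw [max_eq_left hr, one_mul]
      refine ih a fun i => ?_
      suffices ∀ k i, g.natDegree < i + k → A.valuation (g.coeff i) ≤ 1 from
        this (g.natDegree + 1) i (by omega)
      intro k
      induction k with
      | zero =>
        intro i hi
        rw [coeff_eq_zero_of_natDegree_lt (by omega), map_zero]
        exact zero_le
      | succ k ihk =>
        intro i hi
        rw [show g.coeff i = (g.coeff i - r * g.coeff (i + 1)) + r * g.coeff (i + 1) by ring]
        refine A.valuation.map_add_le (hs i) ?_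
        rw [map_mul]
        exact mul_le_one₀ hr zero_le (ihk (i + 1) (by omega))
    · rw [not_le] at hr
      rw [max_eq_right hr.le, ← mul_assoc, ← map_mul]
      refine ih (a * r) fun i => ?_
      rw [map_mul C, mul_assoc, mul_left_comm, ← hg, coeff_C_mul]
      induction i with
      | zero => exact h0
      | succ i ihi =>
        have h1 : A.valuation (g.coeff i) ≤ 1 := by
          rw [map_mul] at ihi
          exact (le_mul_of_one_le_left' hr.le).trans ihi
        rw [show r * g.coeff (i + 1) = g.coeff i - (g.coeff i - r * g.coeff (i + 1)) by ring]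
        exact A.valuation.map_sub_le h1 (hs i)

variable [IsAlgClosed K]

/-- A set of roots of an integral polynomial. -/
theorem val_lead_mul_prod_le {f : K[X]} (hf : ∀ i, A.valuation (f.coeff i) ≤ 1) (hf0 : f ≠ 0)
    (T : Finset K) (hT : ∀ t ∈ T, f.eval t = 0) :
    A.valuation f.leadingCoeff * ∏ t ∈ T, A.valuation t ≤ 1 := by
  classical
  have hsplit : f.Splits := IsAlgClosed.splits f
  have h := val_mul_prod_max_le (A := A) f.roots f.leadingCoeff (by
    rw [← hsplit.eq_prod_roots]; exact hf)
  refine le_trans (mul_le_mul' le_rfl ?_) h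
  have hle : T.val ≤ f.roots := T.val_le_iff_val_subset.mpr fun t ht =>
    (mem_roots hf0).mpr (hT t ht)
  obtain ⟨m, hm⟩ := Multiset.le_iff_exists_add.mp hle
  rw [hm, Multiset.map_add, Multiset.prod_add]
  refine le_mul_of_le_of_one_le
    (Finset.prod_le_prod' fun t _ => le_max_right 1 (A.valuation t)) ?_
  exact Multiset.one_le_prod_of_one_le fun y hy => by
    obtain ⟨x, -, rfl⟩ := Multiset.mem_map.mp hy
    exact le_max_left _ _

variable [DecidableEq K] {W : WeierstrassCurve.Affine K}

/-- Among the multiples `k Q`, `k < p / 2`, of a point of order `p` in `E₁`, all abscissae are at least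
`M` and their product with `p` is at most `1`. -/
theorem val_p_mul_pow_mul_le (hW : IntCoeffs A W) {p : ℕ} (hp : p.Prime) (hp2 : p ≠ 2)
    (hpK : (p : K) ≠ 0) {Q : W.Point} (hQ0 : Q ≠ 0) (hQ : p • Q = 0) (M : A.ValueGroup)
    (hM : ∀ k : ℕ, 0 < k → k < p → M ≤ A.valuation (LocalP.xCoord (k • Q))) :
    A.valuation (p : K) * (A.valuation (LocalP.xCoord Q) * M ^ ((p - 1) / 2 - 1)) ≤ 1 := by
  classical
  have hodd := hp.odd_of_ne_two hp2
  have h2 := hp.two_le
  set f := W.preΨ' p with hf
  have hlc : f.leadingCoeff = (p : K) := by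
    rw [hf, W.leadingCoeff_preΨ' hpK, if_neg (Nat.not_even_iff_odd.mpr hodd)]
  have hf0 : f ≠ 0 := fun h => hpK (by rw [← hlc, h, leadingCoeff_zero])
  have hint : ∀ i, A.valuation (f.coeff i) ≤ 1 := fun i => by
    rw [hf, show W.preΨ' p = ((intModel hW).preΨ' p).map A.subtype from
      (intModel hW).map_preΨ' A.subtype p, coeff_map]
    exact A.valuation_le_one _
  have : Fact p.Prime := ⟨hp⟩
  have hord : addOrderOf Q = p := addOrderOf_eq_prime hQ hQ0
  set n := (p - 1) / 2 with hn
  have hn2 : p = 2 * n + 1 := by obtain ⟨m, hm⟩ := hodd; omega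
  have hne : ∀ k, 0 < k → k < p → k • Q ≠ 0 := fun k h0 hk h => by
    have := Nat.le_of_dvd h0 (hord ▸ addOrderOf_dvd_of_nsmul_eq_zero h)
    omega
  set T := (Finset.Icc 1 n).image fun k => LocalP.xCoord (k • Q) with hTdef
  have hinj : Set.InjOn (fun k : ℕ => LocalP.xCoord (k • Q)) ↑(Finset.Icc 1 n) := by
    intro i hi j hj hij
    rw [Finset.coe_Icc, Set.mem_Icc] at hi hj
    by_contra hne'
    have : ∀ {i j : ℕ}, i < j → j ≤ n → 1 ≤ i →
        LocalP.xCoord (i • Q) ≠ LocalP.xCoord (j • Q) := by
      intro i j hlt hjn hi1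
      refine LocalP.xCoord_ne_of_ne_neg (hne i hi1 (by omega)) (hne j (by omega) (by omega))
        (fun h => hne (j - i) (by omega) (by omega) ?_)
        fun h => hne (i + j) (by omega) (by omega) (by rw [add_nsmul, h, neg_add_cancel])
      rw [eq_comm, ← Nat.sub_add_cancel hlt.le, add_nsmul, add_eq_right] at h
      exact h
    rcases lt_or_gt_of_ne hne' with hlt | hlt
    · exact this hlt hj.2 hi.1 hij
    · exact this hlt hi.2 hj.1 hij.symm
  have hTroot : ∀ t ∈ T, f.eval t = 0 := by
    intro t ht
    obtain ⟨k, hk, rfl⟩ := Finset.mem_image.mp ht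
    rw [Finset.mem_Icc] at hk
    have h0 : p • (k • Q) = 0 := by rw [← mul_nsmul, mul_nsmul', hQ, nsmul_zero]
    have hk0 := hne k hk.1 (by omega)
    show f.eval (LocalP.xCoord (k • Q)) = 0
    rcases hkQ : k • Q with _ | ⟨x, y, h⟩
    · exact absurd hkQ hk0
    rw [hkQ, nsmul_eq_zero_iff h p, ΨSq_ofNat, if_neg (Nat.not_even_iff_odd.mpr hodd), mul_one,
      eval_pow] at h0
    exact pow_eq_zero_iff two_ne_zero |>.mp h0
  have h := val_lead_mul_prod_le hint hf0 T hTroot
  rw [hlc, hTdef, Finset.prod_image hinj] at h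
  refine le_trans (mul_le_mul' le_rfl ?_) h
  have h1 : (1 : ℕ) ∈ Finset.Icc 1 n := Finset.mem_Icc.mpr ⟨le_rfl, by omega⟩
  rw [← Finset.mul_prod_erase _ _ h1, one_nsmul]
  refine mul_le_mul' le_rfl ?_
  rw [show n - 1 = ((Finset.Icc 1 n).erase 1).card by
    rw [Finset.card_erase_of_mem h1, Nat.card_Icc]; omega]
  refine Finset.pow_card_le_prod _ _ _ fun k hk => ?_
  simp only [Finset.mem_erase, Finset.mem_Icc] at hk
  exact hM k (by omega) (by omega)

end FermatAgent.MazurPrinciple.Peu
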