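import Fermat.Agent.MazurPrinciple.Peu.Model
import Fermat.Agent.MazurPrinciple.Peu.TorsionVal
import Fermat.Agent.MazurPrinciple.Peu.Shift
import Fermat.Agent.RTLift.Setup.Global.TresModel

/-!
# A Tate curve with `p ∣ v(c)` has no root of `p` times a unit in the field of its `p`-torsion

The abscissa of a low torsion point, scaled to a unit, moves by exactly `|ζ - 1|`.
-/

set_option autoImplicit false

open scoped WeierstrassCurve.Affine

noncomputable section

namespace FermatAgent.MazurPrinciple.Peu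

open WeierstrassCurve WeierstrassCurve.Affine FermatAgent.Local FermatAgent.TW FermatAgent.TW.Flat
  FermatAgent.RTLift.Setup Matrix

local notation "Qb" => AlgebraicClosure ℚ
local notation "GQ" => AlgebraicClosure ℚ ≃ₐ[ℚ] AlgebraicClosure ℚ

variable {A : ValuationSubring Qb} {W : WeierstrassCurve.Affine Qb} {p : ℕ} [Fact p.Prime]

omit A W in
/-- Matrices of determinant one moving everything into a proper subspace fix that subspace. -/
theorem mulVec_eq_self_of_range_le {S : Matrix (Fin 2) (Fin 2) (ZMod p)} (hdet : S.det = 1)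
    {L : Submodule (ZMod p) (Fin 2 → ZMod p)} (hL : L ≠ ⊤) (hrange : ∀ x, S *ᵥ x - x ∈ L)
    {x : Fin 2 → ZMod p} (hx : x ∈ L) : S *ᵥ x = x := by
  set N := S - 1 with hN
  have hNv : ∀ z, N *ᵥ z = S *ᵥ z - z := fun z => by
    rw [hN, Matrix.sub_mulVec, Matrix.one_mulVec]
  have hdN : N.det = 0 := by
    by_contra hd
    refine hL (eq_top_iff.2 fun z _ => ?_)
    have hz : N *ᵥ (N⁻¹ *ᵥ z) = z := by
      rw [Matrix.mulVec_mulVec, Matrix.mul_nonsing_inv _ (Ne.isUnit hd), Matrix.one_mulVec]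
    rw [← hz, hNv]
    exact hrange _
  have htN : N.trace = 0 := by
    rw [Matrix.det_fin_two] at hdet hdN
    simp only [hN, Matrix.sub_apply, Matrix.one_apply_eq, ne_eq, Fin.reduceEq, not_false_eq_true,
      Matrix.one_apply_ne, sub_zero] at hdN
    rw [hN, Matrix.trace_fin_two]
    simp only [Matrix.sub_apply, Matrix.one_apply_eq]
    linear_combination hdet - hdN
  have hsq : ∀ z, N *ᵥ (N *ᵥ z) = 0 := fun z => by
    have h := N.aeval_self_charpoly
    rw [Matrix.charpoly_fin_two, htN, hdN] at h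
    rw [Matrix.mulVec_mulVec, show N * N = 0 by simpa [sq] using h, Matrix.zero_mulVec]
  rw [← sub_eq_zero, ← hNv]
  by_contra hne
  refine hL ?_
  have hindep : LinearIndependent (ZMod p) ![x, N *ᵥ x] := by
    rw [LinearIndependent.pair_iff]
    intro a b hab
    have h := congrArg (fun z => N *ᵥ z) hab
    simp only [Matrix.mulVec_add, Matrix.mulVec_smul, hsq, smul_zero, add_zero,
      Matrix.mulVec_zero] at h
    obtain rfl := (smul_eq_zero.1 h).resolve_right hne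
    rw [zero_smul, zero_add] at hab
    exact ⟨rfl, (smul_eq_zero.1 hab).resolve_right hne⟩
  rw [eq_top_iff, ← hindep.span_eq_top_of_card_eq_finrank (by simp), Submodule.span_le]
  rintro z ⟨i, rfl⟩
  fin_cases i
  · exact hx
  · show N *ᵥ x ∈ L
    rw [hNv]; exact hrange x

omit [Fact p.Prime] in
theorem xCoord_conjPoint (σ : GQ) (h : W.map ((σ : GQ) : Qb →+* Qb) = W) (Q : W.Point) :
    LocalP.xCoord (conjPoint W (σ : Qb →+* Qb) h Q) = σ (LocalP.xCoord Q) := by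
  rcases Q with _ | ⟨a, b, h'⟩
  · exact (map_zero σ).symm
  · rfl

/-- The parameter of a point of order `p` of the formal group fixed by `J` has value `|ζ - 1|`. -/
theorem val_formal_param (hp2 : p ≠ 2) (hT : IsTate A W) {J : Subgroup GQ} {u : A.ValueGroup}
    (hu : Uniform A J u) (hup : u ^ (p - 1) = A.valuation (p : Qb))
    (hfix : ∀ σ ∈ J, W.map ((σ : GQ) : Qb →+* Qb) = W) {Q : W.Point} (hQ0 : Q ≠ 0)
    (hQp : p • Q = 0) (hQ1 : InE1 A W Q) (hQfix : ∀ σ (hσ : σ ∈ J), conjPoint W (σ : Qb →+* Qb) (hfix σ hσ) Q = Q)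
    {t t' : Qb} {h : W.Nonsingular t t'} (hQe : Q = .some t t' h) :
    t ∉ A ∧ A.valuation (t / t') = u := by
  have hp := (Fact.out : p.Prime)
  have hu0 := hu.ne_zero
  have hord : addOrderOf Q = p := addOrderOf_eq_prime hQp hQ0
  -- every multiple
  have hmul : ∀ k : ℕ, 0 < k → k < p → ∀ s s' (hs : W.Nonsingular s s'), k • Q = .some s s' hs →
      s ∉ A ∧ A.valuation (s / s') ≤ u ∧ A.valuation s * A.valuation (s / s') ^ 2 = 1 := by
    intro k _ _ s s' hs he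
    have h1 : InE1 A W (.some s s' hs) := he ▸ (e1Subgroup A W hT.intCoeffs).nsmul_mem hQ1 k
    have hsA : s ∉ A := h1
    obtain ⟨hlt, -, hone⟩ := val_formal hT hs hsA
    have hfixs : ∀ σ ∈ J, σ s = s ∧ σ s' = s' := fun σ hσ => by
      have e : conjPoint W (σ : Qb →+* Qb) (hfix σ hσ) (k • Q) = k • Q := by
        rw [map_nsmul, hQfix σ hσ]
      rw [he, conjPoint_some] at e
      simpa using e
    refine ⟨hsA, hu.le_of_lt_one (fun σ hσ => by rw [map_div₀, (hfixs σ hσ).1, (hfixs σ hσ).2]) ?_,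
      hone⟩
    rw [map_div₀]
    exact (div_lt_one₀ (zero_le.trans_lt hlt)).2 hlt
  obtain ⟨htA, htle, htone⟩ := hmul 1 one_pos hp.one_lt t t' h (by rw [one_nsmul, hQe])
  refine ⟨htA, le_antisymm htle ?_⟩
  have hM : ∀ k : ℕ, 0 < k → k < p →
      (u ^ 2)⁻¹ ≤ A.valuation (LocalP.xCoord (k • Q)) := by
    intro k h0 hk
    rcases he : k • Q with _ | ⟨s, s', hs⟩
    · have hd : p ∣ k := hord ▸ addOrderOf_dvd_of_nsmul_eq_zero he
      have := Nat.le_of_dvd h0 hd
      omega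
    obtain ⟨-, hle, hone⟩ := hmul k h0 hk s s' hs he
    show (u ^ 2)⁻¹ ≤ A.valuation s
    rw [inv_le_iff_one_le_mul₀ (pow_pos (zero_lt_iff.2 hu0) 2), ← hone]
    exact mul_le_mul' le_rfl (pow_le_pow_left' hle 2)
  have hP := val_p_mul_pow_mul_le hT.intCoeffs hp hp2 (Nat.cast_ne_zero.2 hp.ne_zero) hQ0 hQp
    ((u ^ 2)⁻¹) hM
  obtain ⟨m, hm⟩ := hp.odd_of_ne_two hp2
  have h2 := hp.two_le
  rw [hQe, show LocalP.xCoord (Point.some t t' h) = t from rfl, ← hup,
    show p - 1 = 2 * ((p - 1) / 2 - 1) + 2 by omega, pow_add, pow_mul,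
    mul_comm (A.valuation t), ← mul_assoc, mul_right_comm _ (u ^ 2)] at hP
  rw [show (2 * ((p - 1) / 2 - 1) + 2) / 2 - 1 = (p - 1) / 2 - 1 by omega, ← mul_pow,
    mul_inv_cancel₀ (pow_ne_zero 2 hu0), one_pow, one_mul] at hP
  refine (pow_le_pow_iff_left₀ zero_le zero_le two_ne_zero).1 ?_
  have ht0 : (0 : A.ValueGroup) < A.valuation t :=
    zero_lt_one.trans (one_lt_val_of_not_mem htA)
  exact le_of_mul_le_mul_left (a := A.valuation t)
    (by rw [htone, mul_comm]; exact hP) ht0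

/-- No such root on a Tate curve with `p ∣ v(c)`. -/
theorem false_of_tate (hA : A.LiesOverPrime p) (hp2 : p ≠ 2) (hT : IsTate A W)
    (hΔ : W.Δ ≠ 0) {v : ℕ} (hv : A.valuation W.a₆ = A.valuation (p : Qb) ^ v) (hpv : p ∣ v)
    (hfix : ∀ σ ∈ inertiaCyclo p A, W.map ((σ : GQ) : Qb →+* Qb) = W)
    {ι : (Fin 2 → ZMod p) →+ W.Point} (hι : Function.Injective ι)
    (honto : ∀ P : W.Point, p • P = 0 → ∃ x, ι x = P)
    (R : GQ →* Matrix (Fin 2) (Fin 2) (ZMod p))
    (hR : ∀ σ (hσ : σ ∈ inertiaCyclo p A) x,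
      ι (R σ *ᵥ x) = conjPoint W (σ : Qb →+* Qb) (hfix σ hσ) (ι x))
    (hdet : ∀ σ ∈ inertiaCyclo p A, (R σ).det = 1)
    {r : Qb} (hr : A.valuation r ^ p = A.valuation (p : Qb))
    (hrp : ∀ σ ∈ inertiaCyclo p A, σ (r ^ p) = r ^ p)
    (hker : ∀ σ ∈ inertiaCyclo p A, R σ = 1 → σ r = r) : False := by
  classical
  have hp := (Fact.out : p.Prime)
  set J := inertiaCyclo p A
  have hJD : J ≤ A.decompositionSubgroup ℚ := fun σ hσ =>
    mem_decomposition_of_inertia (mem_inertiaCyclo.1 hσ).1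
  obtain ⟨ζ, hζ⟩ : ∃ ζ : Qb, IsPrimitiveRoot ζ p :=
    have : NeZero ((p : ℕ) : Qb) := ⟨Nat.cast_ne_zero.2 hp.ne_zero⟩
    HasEnoughRootsOfUnity.exists_primitiveRoot Qb p
  have hu := uniform_inertiaCyclo hζ hA
  set u := A.valuation (ζ - 1) with hudef
  have hup : u ^ (p - 1) = A.valuation (p : Qb) := Duality.Local.val_zeta_sub_one_pow hζ
  have h2 : A.valuation (2 : Qb) = 1 := by
    have := val_intCast_eq_one hp hA (m := 2) (fun h => hp2 ((Nat.prime_dvd_prime_iff_eq hp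
      Nat.prime_two).1 (Int.natCast_dvd_natCast.1 h)))
    simpa using this
  obtain ⟨σ₁, hσ₁, hne, -, hmove⟩ := exists_move_lt (p := p) not_sq_dvd_card_GL R.toHomUnits hA hr
    hrp fun σ hσ h => hker σ hσ (congrArg Units.val h)
  obtain ⟨P, g, k, hP, hlow, -, -, hgk⟩ := exists_low_torsion (p := p) hT hΔ hp2 hA
  obtain ⟨x₀, hx₀⟩ := honto P hP
  obtain ⟨xP, yP, hPn, hPeq⟩ : ∃ x y h, P = Point.some x y h := by
    rcases P with _ | ⟨x, y, h⟩
    exacts [hlow.elim, ⟨x, y, h, rfl⟩]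
  have hlow' := hlow
  rw [hPeq] at hlow'
  have hxP : A.valuation xP = g := hlow'.1
  have hPE : ¬ InE1 A W P := by
    rw [hPeq]; exact fun h => h (mem_of_val_le_one (hxP.trans_le hlow'.2.2.1.le))
  let L : Submodule (ZMod p) (Fin 2 → ZMod p) :=
    AddSubgroup.toZModSubmodule p ((e1Subgroup A W hT.intCoeffs).comap ι)
  have hL : ∀ x, x ∈ L ↔ InE1 A W (ι x) := fun x => Iff.rfl
  have hx₀L : x₀ ∉ L := fun h => hPE (by rw [← hx₀, ← hL]; exact h)
  have hLne : L ≠ ⊤ := fun h => hx₀L (h ▸ Submodule.mem_top)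
  have hzero : ∀ x : Fin 2 → ZMod p, p • x = 0 := fun x => funext fun i => by simp
  have hrange : ∀ σ ∈ J, ∀ x, R σ *ᵥ x - x ∈ L := by
    intro σ hσ x
    rw [hL, map_sub, hR σ hσ]
    refine LocalP.inE1_of_nsmul_eq_zero_tate hT hp (by have := hp.two_le; omega) hA ?_
      (hT.conj_sub_inE0 _ (hJD hσ) _)
    rw [nsmul_sub, ← map_nsmul, ← map_nsmul, hzero, map_zero, map_zero, sub_zero]
  have hline : ∀ σ ∈ J, ∀ x ∈ L, R σ *ᵥ x = x := fun σ hσ x hx =>
    mulVec_eq_self_of_range_le (hdet σ hσ) hLne (hrange σ hσ) hx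
  set w := R σ₁ *ᵥ x₀ - x₀ with hw
  have hw0 : w ≠ 0 := by
    intro h0
    refine hne (Units.ext (Matrix.toLin'.injective (LinearMap.ext fun x => ?_)))
    show Matrix.toLin' (R σ₁) x = Matrix.toLin' (1 : Matrix (Fin 2) (Fin 2) (ZMod p)) x
    rw [Matrix.toLin'_apply, Matrix.toLin'_apply, Matrix.one_mulVec]
    -- `L` and `x₀` span
    by_contra hx
    have hy : R σ₁ *ᵥ x - x ∈ L := hrange σ₁ hσ₁ x
    have hindep : LinearIndependent (ZMod p) ![x₀, R σ₁ *ᵥ x - x] := by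
      rw [LinearIndependent.pair_iff]
      intro a b hab
      obtain rfl : a = 0 := by
        by_contra ha
        refine hx₀L ?_
        rw [show x₀ = a⁻¹ • (-(b • (R σ₁ *ᵥ x - x))) by
          rw [← eq_neg_of_add_eq_zero_left hab, smul_smul, inv_mul_cancel₀ ha, one_smul]]
        exact L.smul_mem _ (L.neg_mem (L.smul_mem _ hy))
      rw [zero_smul, zero_add] at hab
      exact ⟨rfl, (smul_eq_zero.1 hab).resolve_right (sub_ne_zero.2 hx)⟩
    obtain ⟨c, hc⟩ := (Submodule.mem_span_range_iff_exists_fun (ZMod p)).1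
      (show x ∈ Submodule.span (ZMod p) (Set.range ![x₀, R σ₁ *ᵥ x - x]) by
        rw [hindep.span_eq_top_of_card_eq_finrank (by simp)]; exact Submodule.mem_top)
    refine hx ?_
    rw [Fin.sum_univ_two] at hc
    simp only [Matrix.cons_val_zero, Matrix.cons_val_one] at hc
    conv_lhs => rw [← hc]
    rw [Matrix.mulVec_add, Matrix.mulVec_smul, Matrix.mulVec_smul, hline σ₁ hσ₁ _ hy,
      (sub_eq_zero.1 h0 : R σ₁ *ᵥ x₀ = x₀)]
    exact hc
  have hwL : w ∈ L := hrange σ₁ hσ₁ x₀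
  have hQ0 : ι w ≠ 0 := fun h => hw0 (hι (h.trans (map_zero ι).symm))
  obtain ⟨t, t', hQn, hQe⟩ : ∃ t t' h, ι w = Point.some t t' h := by
    rcases hι' : ι w with _ | ⟨t, t', h⟩
    exacts [absurd hι' hQ0, ⟨t, t', h, rfl⟩]
  obtain ⟨htA, htu⟩ := val_formal_param hp2 hT hu hup hfix hQ0
    (by rw [← map_nsmul, hzero, map_zero]) ((hL w).1 hwL)
    (fun σ hσ => by rw [← hR σ hσ, hline σ hσ w hwL]) hQe
  have hxc : ∀ σ ∈ J, ∀ y, LocalP.xCoord (ι (R σ *ᵥ y)) = σ (LocalP.xCoord (ι y)) := fun σ hσ y => by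
    rw [hR σ hσ, xCoord_conjPoint σ (hfix σ hσ)]
  have hxP' : LocalP.xCoord (ι x₀) = xP := by rw [hx₀, hPeq]; rfl
  have hmove' : A.valuation (σ₁ xP - xP) = u * g := by
    conv_lhs => rw [← hxP']
    rw [← hxc σ₁ hσ₁, show R σ₁ *ᵥ x₀ = x₀ + w by rw [hw, add_sub_cancel], map_add, hx₀, hPeq, hQe,
      show LocalP.xCoord (Point.some xP yP hPn) = xP from rfl,
      val_xCoord_add_sub_eq hT hlow' htA h2, htu]
  obtain ⟨v', rfl⟩ := hpv
  set n := (p - 1) * (v' * k)
  have hg : g = u ^ n := by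
    refine (pow_left_inj₀ zero_le zero_le hp.ne_zero).1 ?_
    rw [hgk, hv, ← hup, ← pow_mul, ← pow_mul, ← pow_mul]
    congr 1
    ring
  have hπ0 : (ζ - 1) ^ n ≠ 0 := pow_ne_zero _ (zeta_sub_one_ne_zero hζ)
  have hσζ : ∀ σ ∈ J, σ ((ζ - 1) ^ n) = (ζ - 1) ^ n := fun σ hσ => by
    rw [map_pow, map_sub, map_one, TW.apply_root_eq_pow hζ σ, (mem_inertiaCyclo.1 hσ).2,
      Units.val_one, ZMod.val_one, pow_one]
  have hz := hmove (xP / (ζ - 1) ^ n)
    (mem_of_val_le_one (by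
      rw [map_div₀, map_pow, hxP, hg, ← hudef, div_self (pow_ne_zero _ hu.ne_zero)]))
    fun σ hσ h => by
      rw [map_div₀, hσζ σ hσ, ← hxP', ← hxc σ hσ, show R σ = 1 from congrArg Units.val h,
        Matrix.one_mulVec]
  rw [map_div₀, hσζ σ₁ hσ₁, ← sub_div, map_div₀, hmove', map_pow, ← hudef, hg,
    mul_div_cancel_right₀ _ (pow_ne_zero _ hu.ne_zero), hup] at hz
  exact lt_irrefl _ hz

end FermatAgent.MazurPrinciple.Peu
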